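/-
S37 (helper7), step 2a: a minimal "constant reduction" structure (`Deuring.ValSetup` without the
Riemann-Roch hypotheses on the special fibre and without surjectivity of `ρ`), and the
fundamental inequality in the only form needed for S37:

  `red w = (red u)^n`, `red u` transcendental over `k`  ⟹  `n ≤ deg (w)_∞`.
-/
import Mathlib
import Fermat.Agent.Lib.RR.NonSpecial

set_option autoImplicit false
set_option linter.style.haveILetI false

noncomputable section

open AlgebraicCurve Fermat.Agent.RR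

namespace Fermat.Agent.S37

/-- A function field `F / K` with a valuation ring `Ov` ("Gauss valuation") extending a valuation
ring `A` of `K` with the same value group, and a residue map `ρ` to some field `E`. -/
structure GData (K F k E : Type*) [Field K] [Field F] [Algebra K F]
    [Field k] [Field E] [Algebra k E] where
  /-- the valuation ring of the constant field -/
  A : ValuationSubring K
  /-- the (Gauss) valuation ring of the function field -/
  Ov : ValuationSubring F
  /-- residue map of the constants -/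
  res : A →+* k
  /-- residue map of the function field -/
  ρ : Ov →+* E
  /-- standing hypotheses of the Riemann-Roch library, generic fibre -/
  hF : IsRRField K F
  res_surj : Function.Surjective res
  /-- `Ov ∩ K = A` -/
  mem_Ov_iff : ∀ c : K, algebraMap K F c ∈ Ov ↔ c ∈ A
  /-- `ρ` restricted to constants is `res` -/
  ρ_algebraMap : ∀ (c : K) (hc : c ∈ A) (hc' : algebraMap K F c ∈ Ov),
    ρ ⟨algebraMap K F c, hc'⟩ = algebraMap k E (res ⟨c, hc⟩)
  /-- the kernel of `ρ` is the maximal ideal of `Ov` -/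
  ρ_eq_zero_iff : ∀ f : Ov, ρ f = 0 ↔ ¬ IsUnit f
  /-- every `f ≠ 0` is a constant times a unit of `Ov` -/
  scale : ∀ f : F, f ≠ 0 → ∃ c : K, c ≠ 0 ∧
    f * (algebraMap K F c)⁻¹ ∈ Ov ∧ (f * (algebraMap K F c)⁻¹)⁻¹ ∈ Ov

variable {K F k E : Type*} [Field K] [Field F] [Algebra K F]
  [Field k] [Field E] [Algebra k E]

open Classical in
/-- the reduction map as a total function: `ρ` on `Ov`, `0` outside. -/
def GData.red (S : GData K F k E) (f : F) : E :=
  if h : f ∈ S.Ov then S.ρ ⟨f, h⟩ else 0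

namespace GData

variable (S : GData K F k E)

theorem red_of_mem {f : F} (hf : f ∈ S.Ov) : S.red f = S.ρ ⟨f, hf⟩ := by
  unfold GData.red
  rw [dif_pos hf]

theorem red_of_not_mem {f : F} (hf : f ∉ S.Ov) : S.red f = 0 := by
  unfold GData.red
  rw [dif_neg hf]

@[simp]
theorem red_zero : S.red 0 = 0 := by
  rw [S.red_of_mem (zero_mem _)]
  exact map_zero S.ρ

@[simp]
theorem red_one : S.red 1 = 1 := by
  rw [S.red_of_mem (one_mem _)]
  exact map_one S.ρ

theorem red_mul {f g : F} (hf : f ∈ S.Ov) (hg : g ∈ S.Ov) :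
    S.red (f * g) = S.red f * S.red g := by
  rw [S.red_of_mem hf, S.red_of_mem hg, S.red_of_mem (mul_mem hf hg), ← map_mul]
  rfl

theorem red_add {f g : F} (hf : f ∈ S.Ov) (hg : g ∈ S.Ov) :
    S.red (f + g) = S.red f + S.red g := by
  rw [S.red_of_mem hf, S.red_of_mem hg, S.red_of_mem (add_mem hf hg), ← map_add]
  rfl

theorem red_pow {f : F} (hf : f ∈ S.Ov) (n : ℕ) : S.red (f ^ n) = S.red f ^ n := by
  rw [S.red_of_mem hf, S.red_of_mem (pow_mem hf n), ← map_pow]
  rfl

theorem algebraMap_mem {c : K} (hc : c ∈ S.A) : algebraMap K F c ∈ S.Ov :=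
  (S.mem_Ov_iff c).mpr hc

theorem red_algebraMap {c : K} (hc : c ∈ S.A) :
    S.red (algebraMap K F c) = algebraMap k E (S.res ⟨c, hc⟩) := by
  rw [S.red_of_mem (S.algebraMap_mem hc)]
  exact S.ρ_algebraMap c hc _

theorem red_smul {c : K} (hc : c ∈ S.A) {f : F} (hf : f ∈ S.Ov) :
    S.red (c • f) = S.res ⟨c, hc⟩ • S.red f := by
  rw [Algebra.smul_def, S.red_mul (S.algebraMap_mem hc) hf, S.red_algebraMap hc, Algebra.smul_def]

theorem smul_mem {c : K} (hc : c ∈ S.A) {f : F} (hf : f ∈ S.Ov) : c • f ∈ S.Ov := by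
  rw [Algebra.smul_def]
  exact mul_mem (S.algebraMap_mem hc) hf

/-- the reduction of `f ∈ Ov`, `f ≠ 0`, vanishes iff `f` is not a unit of `Ov`. -/
theorem red_eq_zero_iff {f : F} (hf : f ∈ S.Ov) (hf0 : f ≠ 0) : S.red f = 0 ↔ f⁻¹ ∉ S.Ov := by
  rw [S.red_of_mem hf, S.ρ_eq_zero_iff]
  constructor
  · intro hnu hinv
    apply hnu
    exact ⟨⟨⟨f, hf⟩, ⟨f⁻¹, hinv⟩, Subtype.ext (mul_inv_cancel₀ hf0),
      Subtype.ext (inv_mul_cancel₀ hf0)⟩, rfl⟩
  · intro hinv hu
    apply hinv
    obtain ⟨u, hu⟩ := hu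
    have h1 : ((u⁻¹ : S.Ovˣ) : S.Ov) * (⟨f, hf⟩ : S.Ov) = 1 := by
      rw [← hu]
      exact u.inv_mul
    have h2 : (((u⁻¹ : S.Ovˣ) : S.Ov) : F) * f = 1 := by
      have := congrArg (Subtype.val) h1
      simpa using this
    have h3 : f⁻¹ = (((u⁻¹ : S.Ovˣ) : S.Ov) : F) := by
      rw [eq_comm, ← mul_eq_one_iff_eq_inv₀ hf0]
      exact h2
    rw [h3]
    exact Subtype.mem _

theorem red_ne_zero {f : F} (hf : f ∈ S.Ov) (hinv : f⁻¹ ∈ S.Ov) (hf0 : f ≠ 0) : S.red f ≠ 0 := by
  intro h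
  exact ((S.red_eq_zero_iff hf hf0).mp h) hinv

theorem mem_of_red_ne_zero {f : F} (h : S.red f ≠ 0) : f ∈ S.Ov := by
  by_contra hf
  exact h (S.red_of_not_mem hf)

theorem ne_zero_of_red_ne_zero {f : F} (h : S.red f ≠ 0) : f ≠ 0 := by
  rintro rfl
  exact h S.red_zero

theorem inv_mem_of_red_ne_zero {f : F} (h : S.red f ≠ 0) : f⁻¹ ∈ S.Ov := by
  have hf := S.mem_of_red_ne_zero h
  have hf0 : f ≠ 0 := S.ne_zero_of_red_ne_zero h
  by_contra hinv
  exact h ((S.red_eq_zero_iff hf hf0).mpr hinv)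

theorem red_inv {f : F} (hf : f ∈ S.Ov) (hinv : f⁻¹ ∈ S.Ov) (hf0 : f ≠ 0) :
    S.red f⁻¹ = (S.red f)⁻¹ := by
  have h1 : S.red f * S.red f⁻¹ = 1 := by
    rw [← S.red_mul hf hinv, mul_inv_cancel₀ hf0, S.red_one]
  exact eq_inv_of_mul_eq_one_right h1

/-- normal form: every `f ≠ 0` is `c • u` with `c ∈ Kˣ` and `red u ≠ 0`. -/
theorem exists_scale {f : F} (hf : f ≠ 0) :
    ∃ c : K, c ≠ 0 ∧ S.red (c⁻¹ • f) ≠ 0 := by
  obtain ⟨c, hc, h1, h2⟩ := S.scale f hf
  refine ⟨c, hc, ?_⟩
  have e : c⁻¹ • f = f * (algebraMap K F c)⁻¹ := by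
    rw [Algebra.smul_def, map_inv₀, mul_comm]
  rw [e]
  have hc' : algebraMap K F c ≠ 0 := by
    rw [Ne, map_eq_zero_iff _ (algebraMap K F).injective]
    exact hc
  exact S.red_ne_zero h1 h2 (mul_ne_zero hf (inv_ne_zero hc'))

/-- an element with reduction `1` is a unit. -/
theorem red_inv_of_red_eq_one {w : F} (hw : S.red w = 1) : S.red w⁻¹ = 1 := by
  have h0 : S.red w ≠ 0 := by rw [hw]; exact one_ne_zero
  rw [S.red_inv (S.mem_of_red_ne_zero h0) (S.inv_mem_of_red_ne_zero h0)
    (S.ne_zero_of_red_ne_zero h0), hw, inv_one]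

/-- a constant of `A` with nonzero residue is a unit of `A`. -/
theorem inv_mem_of_res_ne_zero {a : K} (ha : a ∈ S.A) (h : S.res ⟨a, ha⟩ ≠ 0) : a⁻¹ ∈ S.A := by
  have h1 : S.red (algebraMap K F a) ≠ 0 := by
    rw [S.red_algebraMap ha]
    exact fun h0 => h ((map_eq_zero_iff _ (algebraMap k E).injective).mp h0)
  have h2 := S.inv_mem_of_red_ne_zero h1
  rw [← map_inv₀] at h2
  exact (S.mem_Ov_iff _).mp h2

end GData

/-- in a valuation ring, a finite family of elements of the fraction field, not all zero, has a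
member of maximal valuation. -/
theorem gd_exists_max_coeff (A : ValuationSubring K) {ι : Type*} [Finite ι] (c : ι → K)
    (hc : ∃ i, c i ≠ 0) : ∃ i₀, c i₀ ≠ 0 ∧ ∀ i, c i * (c i₀)⁻¹ ∈ A := by
  classical
  have := Fintype.ofFinite ι
  obtain ⟨j, hj⟩ := hc
  obtain ⟨i₀, -, hi₀⟩ := Finset.exists_max_image (Finset.univ : Finset ι)
    (fun i => A.valuation (c i)) ⟨j, Finset.mem_univ j⟩
  have hne : c i₀ ≠ 0 := by
    intro h0
    have h1 := hi₀ j (Finset.mem_univ j)
    rw [h0, map_zero] at h1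
    exact hj ((map_eq_zero _).mp (le_antisymm h1 zero_le))
  refine ⟨i₀, hne, fun i => ?_⟩
  rw [← A.valuation_le_one_iff, map_mul, map_inv₀]
  have h1 := hi₀ i (Finset.mem_univ i)
  have h2 : A.valuation (c i₀) ≠ 0 := (map_ne_zero _).mpr hne
  exact mul_inv_le_one_of_le₀ h1 zero_le

variable (S : GData K F k E)

/-- reduction of a linear combination with integral coefficients. -/
theorem gd_red_sum {ι : Type*} [Fintype ι] (w : ι → F) (hw : ∀ i, w i ∈ S.Ov) (c : ι → K)
    (hc : ∀ i, c i ∈ S.A) :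
    (∑ i, c i • w i) ∈ S.Ov ∧
      S.red (∑ i, c i • w i) = ∑ i, S.res ⟨c i, hc i⟩ • S.red (w i) := by
  classical
  suffices h : ∀ s : Finset ι, (∑ i ∈ s, c i • w i) ∈ S.Ov ∧
      S.red (∑ i ∈ s, c i • w i) = ∑ i ∈ s, S.res ⟨c i, hc i⟩ • S.red (w i) from h Finset.univ
  intro s
  induction s using Finset.induction_on with
  | empty => simp
  | insert a s ha ih =>
    rw [Finset.sum_insert ha, Finset.sum_insert ha]
    refine ⟨add_mem (S.smul_mem (hc a) (hw a)) ih.1, ?_⟩
    rw [S.red_add (S.smul_mem (hc a) (hw a)) ih.1, S.red_smul (hc a) (hw a), ih.2]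

/-- an orthonormal family is linearly independent over `K`. -/
theorem gd_linearIndependent_of_red {ι : Type*} [Fintype ι] (w : ι → F)
    (hw : ∀ i, w i ∈ S.Ov)
    (hli : LinearIndependent k (fun i => S.red (w i))) : LinearIndependent K w := by
  classical
  rw [Fintype.linearIndependent_iff]
  intro c hc
  by_contra hcon
  push Not at hcon
  obtain ⟨j, hj⟩ := hcon
  obtain ⟨i₀, hi₀, hall⟩ := gd_exists_max_coeff S.A c ⟨j, hj⟩
  set d : ι → K := fun i => c i * (c i₀)⁻¹ with hd
  have hd_mem : ∀ i, d i ∈ S.A := hall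
  have hsum' : ∑ i, d i • w i = (c i₀)⁻¹ • ∑ i, c i • w i := by
    rw [Finset.smul_sum]
    refine Finset.sum_congr rfl fun i _ => ?_
    rw [hd, smul_smul, mul_comm]
  have h1 := (gd_red_sum S w hw d hd_mem).2
  rw [hsum', hc, smul_zero, S.red_zero] at h1
  have h2 := (Fintype.linearIndependent_iff.mp hli) (fun i => S.res ⟨d i, hd_mem i⟩) h1.symm i₀
  have h3 : (⟨d i₀, hd_mem i₀⟩ : S.A) = 1 := by
    apply Subtype.ext
    show c i₀ * (c i₀)⁻¹ = 1
    exact mul_inv_cancel₀ hi₀
  rw [h3, map_one] at h2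
  exact one_ne_zero h2

/-- the powers of a transcendental element are linearly independent. -/
theorem gd_linearIndependent_pow {x : E} (hx : Transcendental k x) :
    LinearIndependent k (fun i : ℕ => x ^ i) := by
  have hinj : Function.Injective (Polynomial.aeval (R := k) x) :=
    transcendental_iff_injective.mp hx
  have h1 : LinearIndependent k (fun i : ℕ => (Polynomial.monomial i (1 : k))) := by
    have := (Polynomial.basisMonomials k).linearIndependent
    rwa [Polynomial.coe_basisMonomials] at this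
  have h2 := h1.map' (Polynomial.aeval (R := k) x).toLinearMap (LinearMap.ker_eq_bot.mpr hinj)
  have e : (fun i : ℕ => x ^ i) =
      ⇑(Polynomial.aeval (R := k) x).toLinearMap ∘
        (fun i : ℕ => (Polynomial.monomial i (1 : k))) := by
    funext i
    simp [Polynomial.aeval_monomial]
  rw [e]
  exact h2

/-- `u ^ i ∈ L(n (u)_∞)` for `i ≤ n`. -/
theorem gd_pow_mem (h : IsRRField K F) (u : F) {i n : ℕ} (hin : i ≤ n) :
    u ^ i ∈ riemannRochSpace (n • poleDiv h u) := by
  have h1 : (1 : F) ∈ riemannRochSpace (0 : Divisor K F) := by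
    have := algebraMap_mem_riemannRochSpace_zero (K := K) (F := F) (1 : K)
    rwa [map_one] at this
  have h2 := pow_mul_mem h u h1 hin
  rwa [mul_one, add_zero] at h2

/-- **Fundamental inequality, special case**: if `red w = (red u)^n` with `red u` transcendental
over `k`, then `n ≤ deg (w)_∞`. -/
theorem gd_le_degree_poleDiv {u w : F} (hu : u ∈ S.Ov) (hw : w ∈ S.Ov) (n : ℕ)
    (hred : S.red w = S.red u ^ n) (htr : Transcendental k (S.red u)) :
    (n : ℤ) ≤ Divisor.degree (poleDiv S.hF w) := by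
  classical
  by_contra hcon
  push Not at hcon
  have hd0 : 0 ≤ Divisor.degree (poleDiv S.hF w) :=
    degree_nonneg_of_nonneg S.hF (poleDiv_nonneg S.hF w)
  have hdu0 : 0 ≤ Divisor.degree (poleDiv S.hF u) :=
    degree_nonneg_of_nonneg S.hF (poleDiv_nonneg S.hF u)
  obtain ⟨du, hdu⟩ : ∃ du : ℕ, (du : ℤ) = Divisor.degree (poleDiv S.hF u) :=
    ⟨_, Int.toNat_of_nonneg hdu0⟩
  set M : ℕ := n * du + 1 with hM
  set D : Divisor K F := M • poleDiv S.hF w + n • poleDiv S.hF u with hD
  let e : Fin (M + 1) × Fin n → F := fun p => w ^ (p.1 : ℕ) * u ^ (p.2 : ℕ)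
  have hmem : ∀ p, e p ∈ riemannRochSpace D := fun p =>
    pow_mul_mem S.hF w (gd_pow_mem S.hF u (le_of_lt p.2.2)) (Nat.lt_succ_iff.mp p.1.2)
  have heO : ∀ p, e p ∈ S.Ov := fun p => mul_mem (pow_mem hw _) (pow_mem hu _)
  have hered : ∀ p, S.red (e p) = S.red u ^ (n * (p.1 : ℕ) + (p.2 : ℕ)) := by
    intro p
    rw [S.red_mul (pow_mem hw _) (pow_mem hu _), S.red_pow hw, S.red_pow hu, hred, ← pow_mul,
      ← pow_add]
  have hli1 : LinearIndependent k (fun p => S.red (e p)) := by
    have h1 := (gd_linearIndependent_pow htr).comp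
      (fun p : Fin (M + 1) × Fin n => n * (p.1 : ℕ) + (p.2 : ℕ)) (by
        intro p q hpq
        simp only at hpq
        have hp2 := p.2.2
        have hq2 := q.2.2
        have hn0 : 0 < n := lt_of_le_of_lt (Nat.zero_le _) hp2
        have h3 : ((p.1 : ℕ)) = (q.1 : ℕ) := by
          have e1 : (n * (p.1 : ℕ) + (p.2 : ℕ)) / n = (p.1 : ℕ) := by
            rw [Nat.mul_add_div hn0, Nat.div_eq_of_lt hp2, add_zero]
          have e2 : (n * (q.1 : ℕ) + (q.2 : ℕ)) / n = (q.1 : ℕ) := by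
            rw [Nat.mul_add_div hn0, Nat.div_eq_of_lt hq2, add_zero]
          rw [← e1, ← e2, hpq]
        have h4 : ((p.2 : ℕ)) = (q.2 : ℕ) := by
          rw [h3] at hpq
          exact Nat.add_left_cancel hpq
        exact Prod.ext (Fin.ext h3) (Fin.ext h4))
    have e1 : (fun p => S.red (e p)) = (fun i : ℕ => S.red u ^ i) ∘
        (fun p : Fin (M + 1) × Fin n => n * (p.1 : ℕ) + (p.2 : ℕ)) := by
      funext p
      rw [hered]
      rfl
    rw [e1]
    exact h1
  have hliK : LinearIndependent K e := gd_linearIndependent_of_red S e heO hli1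
  have hli2 : LinearIndependent K (fun p => (⟨e p, hmem p⟩ : riemannRochSpace D)) := by
    apply LinearIndependent.of_comp (riemannRochSpace D).subtype
    exact hliK
  haveI := finite_riemannRochSpace S.hF D
  have hcard := hli2.fintype_card_le_finrank
  rw [Fintype.card_prod, Fintype.card_fin, Fintype.card_fin] at hcard
  have hdegD : Divisor.degree D =
      (M : ℤ) * Divisor.degree (poleDiv S.hF w) + (n : ℤ) * (du : ℤ) := by
    rw [hD, map_add, map_nsmul, map_nsmul, nsmul_eq_mul, nsmul_eq_mul, hdu]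
  have hD0 : 0 ≤ Divisor.degree D := by
    rw [hdegD]
    positivity
  have hell := ell_le_degree_add_one S.hF hD0
  rw [ell_def] at hell
  have h5 : ((M + 1) * n : ℤ) ≤ (M : ℤ) * Divisor.degree (poleDiv S.hF w) + (n : ℤ) * du + 1 := by
    rw [← hdegD]
    refine le_trans ?_ hell
    exact_mod_cast hcard
  have h6 : (M : ℤ) * Divisor.degree (poleDiv S.hF w) ≤ (M : ℤ) * ((n : ℤ) - 1) := by
    apply mul_le_mul_of_nonneg_left _ (Int.natCast_nonneg M)
    omega
  have hMz : (M : ℤ) = (n : ℤ) * du + 1 := by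
    rw [hM]
    push_cast
    ring
  nlinarith
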