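/-
S37 (helper7), step 2b: the BOUNDEDNESS argument (abstract).

`S : GData K F k E` a constant reduction of the function field `F / K`.
`unitDiv S` = divisors of functions with reduction `1`.
A "good map" `Λ : Div F →+ Div F` is a difference of two positive maps of bounded degree which
sends every principal divisor into `unitDiv S`.
THEOREM (`mem_unitDiv_of_mem_closure`): a PRINCIPAL divisor in the subgroup generated by the
`Λ Y`, `Λ` good, `Y` of degree `0` (NOT necessarily principal), lies in `unitDiv S`.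
COROLLARY (`principal_of_mem_closure`): with the KEY LEMMA, a divisor `D` in that subgroup with
`m • D` principal is principal.
-/
import Mathlib
import Fermat.Agent.S37.GData

set_option autoImplicit false
set_option linter.style.haveILetI false

noncomputable section

open AlgebraicCurve Fermat.Agent.RR

namespace Fermat.Agent.S37

variable {K F k E : Type*} [Field K] [Field F] [Algebra K F]
  [Field k] [Field E] [Algebra k E]

/-! ### divisors of functions -/

theorem gd_divOf_pow (h : IsRRField K F) (f : F) (n : ℕ) :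
    divOf h (f ^ n) = n • divOf h f := by
  apply Finsupp.ext
  intro v
  rw [divOf_apply, Finsupp.smul_apply, divOf_apply, ← zpow_natCast, Place.ord_zpow, nsmul_eq_mul]

theorem gd_ord_algebraMap (v : Place K F) {c : K} (hc : c ≠ 0) :
    v.ord (algebraMap K F c) = 0 := by
  have h1 : algebraMap K F c * algebraMap K F c⁻¹ = 1 := by
    rw [← map_mul, mul_inv_cancel₀ hc, map_one]
  have h2 : algebraMap K F c⁻¹ * algebraMap K F c = 1 := by
    rw [mul_comm]; exact h1
  let u : v.toValuationSubringˣ :=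
    ⟨⟨algebraMap K F c, v.algebraMap_mem' c⟩, ⟨algebraMap K F c⁻¹, v.algebraMap_mem' c⁻¹⟩,
      Subtype.ext h1, Subtype.ext h2⟩
  exact v.ord_coe_unit u

theorem gd_divOf_smul (h : IsRRField K F) {c : K} (hc : c ≠ 0) {f : F} (hf : f ≠ 0) :
    divOf h (c • f) = divOf h f := by
  apply Finsupp.ext
  intro v
  have hcF : algebraMap K F c ≠ 0 := by
    rw [Ne, map_eq_zero_iff _ (algebraMap K F).injective]
    exact hc
  rw [divOf_apply, divOf_apply, Algebra.smul_def, v.ord_mul hcF hf, gd_ord_algebraMap v hc,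
    zero_add]

/-! ### the subgroup `unitDiv` -/

/-- divisors of functions with reduction `1`. -/
def unitDiv (S : GData K F k E) : AddSubgroup (Divisor K F) where
  carrier := {D | ∃ w : F, S.red w = 1 ∧ D = divOf S.hF w}
  zero_mem' := ⟨1, S.red_one, (divOf_one S.hF).symm⟩
  add_mem' := by
    rintro _ _ ⟨w, hw, rfl⟩ ⟨w', hw', rfl⟩
    have h0 : S.red w ≠ 0 := by rw [hw]; exact one_ne_zero
    have h0' : S.red w' ≠ 0 := by rw [hw']; exact one_ne_zero
    refine ⟨w * w', ?_, ?_⟩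
    · rw [S.red_mul (S.mem_of_red_ne_zero h0) (S.mem_of_red_ne_zero h0'), hw, hw', mul_one]
    · rw [divOf_mul S.hF (S.ne_zero_of_red_ne_zero h0) (S.ne_zero_of_red_ne_zero h0')]
  neg_mem' := by
    rintro _ ⟨w, hw, rfl⟩
    exact ⟨w⁻¹, S.red_inv_of_red_eq_one hw, (divOf_inv S.hF w).symm⟩

theorem mem_unitDiv_iff (S : GData K F k E) (D : Divisor K F) :
    D ∈ unitDiv S ↔ ∃ w : F, S.red w = 1 ∧ D = divOf S.hF w := Iff.rfl

/-! ### bounded divisors -/

/-- `D = E₁ - E₂` with `E₁, E₂ ≥ 0` of degree `≤ C`. -/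
def Bdd (C : ℤ) (D : Divisor K F) : Prop :=
  ∃ E₁ E₂ : Divisor K F, 0 ≤ E₁ ∧ 0 ≤ E₂ ∧ D = E₁ - E₂ ∧
    Divisor.degree E₁ ≤ C ∧ Divisor.degree E₂ ≤ C

theorem Bdd.zero : Bdd (0 : ℤ) (0 : Divisor K F) :=
  ⟨0, 0, le_refl _, le_refl _, (sub_zero _).symm, by simp, by simp⟩

theorem Bdd.add {C C' : ℤ} {D D' : Divisor K F} (h : Bdd C D) (h' : Bdd C' D') :
    Bdd (C + C') (D + D') := by
  obtain ⟨E₁, E₂, h1, h2, rfl, h3, h4⟩ := h
  obtain ⟨E₁', E₂', h1', h2', rfl, h3', h4'⟩ := h'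
  refine ⟨E₁ + E₁', E₂ + E₂', add_nonneg h1 h1', add_nonneg h2 h2', by abel, ?_, ?_⟩
  · rw [map_add]; exact add_le_add h3 h3'
  · rw [map_add]; exact add_le_add h4 h4'

theorem Bdd.neg {C : ℤ} {D : Divisor K F} (h : Bdd C D) : Bdd C (-D) := by
  obtain ⟨E₁, E₂, h1, h2, rfl, h3, h4⟩ := h
  exact ⟨E₂, E₁, h2, h1, by abel, h4, h3⟩

/-- the pole divisor of a function with bounded divisor has bounded degree. -/
theorem Bdd.degree_poleDiv_le (h : IsRRField K F) {C : ℤ} {f : F} (hB : Bdd C (divOf h f)) :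
    Divisor.degree (poleDiv h f) ≤ C := by
  obtain ⟨E₁, E₂, h1, h2, h3, -, h4⟩ := hB
  refine le_trans (degree_mono h ?_) h4
  rw [Finsupp.le_def]
  intro v
  rw [poleDiv_apply]
  have e1 : v.ord f = E₁ v - E₂ v := by
    rw [← divOf_apply h f v, h3, Finsupp.sub_apply]
  have e2 : (0 : ℤ) ≤ E₁ v := by
    have := (Finsupp.le_def.mp h1) v
    simpa using this
  have e3 : (0 : ℤ) ≤ E₂ v := by
    have := (Finsupp.le_def.mp h2) v
    simpa using this
  rw [e1]
  exact max_le (by omega) e3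

/-- **Riemann**: every divisor of degree `0` is a divisor bounded by the genus plus a principal
divisor. -/
theorem exists_bdd_rep (h : IsRRField K F) (Y : Divisor K F) (hY : Divisor.degree Y = 0) :
    ∃ (B : Divisor K F) (a : F), a ≠ 0 ∧ Bdd (genusFF K F : ℤ) B ∧ Y = B + divOf h a := by
  obtain ⟨P₀⟩ := nonempty_place h
  set g : ℕ := genusFF K F with hg
  set D : Divisor K F := Y + Finsupp.single P₀ (g : ℤ) with hD
  have hdegD : Divisor.degree D = g := by
    rw [hD, map_add, hY, zero_add, degree_single_one h]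
  have hell : (1 : ℤ) ≤ (ell D : ℤ) := by
    have := riemann_inequality h D
    rw [hdegD] at this
    omega
  have hne : riemannRochSpace D ≠ ⊥ := by
    intro hbot
    rw [ell_def, hbot, finrank_bot] at hell
    omega
  obtain ⟨a, haD, ha0⟩ := (Submodule.ne_bot_iff _).mp hne
  have hle := (mem_riemannRochSpace_iff_le h ha0).mp haD
  -- `E := div a + D ≥ 0`
  set E₁ : Divisor K F := divOf h a + D with hE₁
  have hE₁0 : 0 ≤ E₁ := by
    rw [hE₁]
    have := add_le_add_left hle D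
    rw [neg_add_cancel] at this
    exact this
  have hdegE : Divisor.degree E₁ = g := by
    rw [hE₁, map_add, degree_divOf, zero_add, hdegD]
  refine ⟨E₁ - Finsupp.single P₀ (g : ℤ), a⁻¹, inv_ne_zero ha0,
    ⟨E₁, Finsupp.single P₀ (g : ℤ), hE₁0, ?_, rfl, le_of_eq hdegE, ?_⟩, ?_⟩
  · classical
    rw [Finsupp.le_def]
    intro v
    rw [Finsupp.single_apply]
    split_ifs
    · exact Int.natCast_nonneg g
    · exact le_refl _
  · rw [degree_single_one h]
  · rw [divOf_inv, hE₁, hD]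
    abel

/-! ### good maps -/

/-- a positive additive map of divisors which multiplies degrees by at most `c`. -/
structure IsPosBdd (c : ℤ) (Λ : Divisor K F →+ Divisor K F) : Prop where
  nonneg : ∀ E, 0 ≤ E → 0 ≤ Λ E
  degree_le : ∀ E, 0 ≤ E → Divisor.degree (Λ E) ≤ c * Divisor.degree E

/-- a difference of two positive maps of bounded degree. -/
def IsBddMap (Λ : Divisor K F →+ Divisor K F) : Prop :=
  ∃ (c : ℤ) (Λ₁ Λ₂ : Divisor K F →+ Divisor K F), 0 ≤ c ∧ IsPosBdd c Λ₁ ∧ IsPosBdd c Λ₂ ∧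
    ∀ D, Λ D = Λ₁ D - Λ₂ D

theorem IsBddMap.exists_bdd {Λ : Divisor K F →+ Divisor K F} (hΛ : IsBddMap Λ) :
    ∃ c : ℤ, 0 ≤ c ∧ ∀ (C : ℤ), 0 ≤ C → ∀ D, Bdd C D → Bdd (c * C) (Λ D) := by
  obtain ⟨c, Λ₁, Λ₂, hc, h1, h2, hΛ⟩ := hΛ
  refine ⟨2 * c, by positivity, fun C hC D hD => ?_⟩
  obtain ⟨E₁, E₂, hE₁, hE₂, rfl, hd₁, hd₂⟩ := hD
  refine ⟨Λ₁ E₁ + Λ₂ E₂, Λ₁ E₂ + Λ₂ E₁, add_nonneg (h1.nonneg _ hE₁) (h2.nonneg _ hE₂),
    add_nonneg (h1.nonneg _ hE₂) (h2.nonneg _ hE₁), ?_, ?_, ?_⟩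
  · rw [hΛ, map_sub, map_sub]
    abel
  · rw [map_add]
    have a1 := h1.degree_le _ hE₁
    have a2 := h2.degree_le _ hE₂
    have b1 : c * Divisor.degree E₁ ≤ c * C := mul_le_mul_of_nonneg_left hd₁ hc
    have b2 : c * Divisor.degree E₂ ≤ c * C := mul_le_mul_of_nonneg_left hd₂ hc
    linarith
  · rw [map_add]
    have a1 := h1.degree_le _ hE₂
    have a2 := h2.degree_le _ hE₁
    have b1 : c * Divisor.degree E₁ ≤ c * C := mul_le_mul_of_nonneg_left hd₁ hc
    have b2 : c * Divisor.degree E₂ ≤ c * C := mul_le_mul_of_nonneg_left hd₂ hc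
    linarith

/-- a good map: bounded, and principal divisors go to divisors of functions with reduction `1`. -/
def IsGoodMap (S : GData K F k E) (Λ : Divisor K F →+ Divisor K F) : Prop :=
  IsBddMap Λ ∧ ∀ w : F, w ≠ 0 → Λ (divOf S.hF w) ∈ unitDiv S

/-- the set of generators `Λ Y`. -/
def genDiv (𝓛 : Set (Divisor K F →+ Divisor K F)) : Set (Divisor K F) :=
  {D | ∃ Λ ∈ 𝓛, ∃ Y : Divisor K F, Divisor.degree Y = 0 ∧ D = Λ Y}

variable (S : GData K F k E)

/-- Lemma A: every element `v` of the subgroup generated by the `Λ Y` has, for every `n`, a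
representative of `n • v` modulo `unitDiv` which is bounded independently of `n`. -/
theorem exists_bdd_of_mem_closure (𝓛 : Set (Divisor K F →+ Divisor K F))
    (h𝓛 : ∀ Λ ∈ 𝓛, IsGoodMap S Λ) {v : Divisor K F}
    (hv : v ∈ AddSubgroup.closure (genDiv 𝓛)) :
    ∃ C : ℤ, ∀ n : ℕ, ∃ B : Divisor K F, Bdd C B ∧ n • v - B ∈ unitDiv S := by
  induction hv using AddSubgroup.closure_induction with
  | mem v hv =>
    obtain ⟨Λ, hΛ, Y, hY, rfl⟩ := hv
    obtain ⟨hbd, hprin⟩ := h𝓛 Λ hΛ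
    obtain ⟨c, hc, hcb⟩ := hbd.exists_bdd
    refine ⟨c * (genusFF K F : ℤ), fun n => ?_⟩
    have hnY : Divisor.degree (n • Y) = 0 := by rw [map_nsmul, hY, smul_zero]
    obtain ⟨B₀, a, ha, hB₀, hYB⟩ := exists_bdd_rep S.hF (n • Y) hnY
    refine ⟨Λ B₀, hcb _ (Int.natCast_nonneg _) _ hB₀, ?_⟩
    have e : n • Λ Y - Λ B₀ = Λ (divOf S.hF a) := by
      rw [← map_nsmul, ← map_sub, hYB, add_sub_cancel_left]
    rw [e]
    exact hprin a ha
  | zero =>
    refine ⟨0, fun n => ⟨0, Bdd.zero, ?_⟩⟩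
    rw [smul_zero, sub_zero]
    exact AddSubgroup.zero_mem _
  | add v w _ _ hv hw =>
    obtain ⟨C, hC⟩ := hv
    obtain ⟨C', hC'⟩ := hw
    refine ⟨C + C', fun n => ?_⟩
    obtain ⟨B, hB, hBm⟩ := hC n
    obtain ⟨B', hB', hBm'⟩ := hC' n
    refine ⟨B + B', hB.add hB', ?_⟩
    have e : n • (v + w) - (B + B') = (n • v - B) + (n • w - B') := by
      rw [smul_add]; abel
    rw [e]
    exact AddSubgroup.add_mem _ hBm hBm'
  | neg v _ hv =>
    obtain ⟨C, hC⟩ := hv
    refine ⟨C, fun n => ?_⟩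
    obtain ⟨B, hB, hBm⟩ := hC n
    refine ⟨-B, hB.neg, ?_⟩
    have e : n • (-v) - (-B) = -(n • v - B) := by
      rw [smul_neg]; abel
    rw [e]
    exact AddSubgroup.neg_mem _ hBm

/-- an element of `E` algebraic over the algebraically closed field `k` is a constant. -/
theorem gd_exists_algebraMap_eq [IsAlgClosed k] {x : E} (hx : IsAlgebraic k x) :
    ∃ c : k, algebraMap k E c = x := by
  have hint : IsIntegral k x := hx.isIntegral
  have hirr := minpoly.irreducible hint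
  have hdeg := IsAlgClosed.degree_eq_one_of_irreducible k hirr
  exact minpoly.mem_range_of_degree_eq_one k x hdeg

/-- Lemma B: a principal divisor all of whose multiples are bounded modulo `unitDiv` lies in
`unitDiv`. -/
theorem mem_unitDiv_of_bdd [IsAlgClosed k] {f : F} (hf : f ≠ 0) (C : ℤ)
    (hC : ∀ n : ℕ, ∃ B : Divisor K F, Bdd C B ∧ n • divOf S.hF f - B ∈ unitDiv S) :
    divOf S.hF f ∈ unitDiv S := by
  obtain ⟨c, hc, hred⟩ := S.exists_scale hf
  set u : F := c⁻¹ • f with hu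
  have hu0 : u ≠ 0 := S.ne_zero_of_red_ne_zero hred
  have huO : u ∈ S.Ov := S.mem_of_red_ne_zero hred
  have hdiv : divOf S.hF u = divOf S.hF f := gd_divOf_smul S.hF (inv_ne_zero hc) hf
  by_cases halg : IsAlgebraic k (S.red u)
  · -- the reduction is a constant
    obtain ⟨cb, hcb⟩ := gd_exists_algebraMap_eq halg
    have hcb0 : cb ≠ 0 := by
      rintro rfl
      rw [map_zero] at hcb
      exact hred hcb.symm
    obtain ⟨⟨a, ha⟩, rfl⟩ := S.res_surj cb
    have hainv : a⁻¹ ∈ S.A := S.inv_mem_of_res_ne_zero ha hcb0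
    have ha0 : a ≠ 0 := by
      rintro rfl
      apply hcb0
      have : (⟨0, ha⟩ : S.A) = 0 := rfl
      rw [this, map_zero]
    refine ⟨a⁻¹ • u, ?_, ?_⟩
    · have h1 : S.red (algebraMap K F a) = algebraMap k E (S.res ⟨a, ha⟩) := S.red_algebraMap ha
      have h2 : S.red (algebraMap K F a⁻¹) = (algebraMap k E (S.res ⟨a, ha⟩))⁻¹ := by
        have haF : algebraMap K F a ≠ 0 := by
          rw [Ne, map_eq_zero_iff _ (algebraMap K F).injective]
          exact ha0
        have := S.red_inv (S.algebraMap_mem ha)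
          (by rw [← map_inv₀]; exact S.algebraMap_mem hainv) haF
        rw [← map_inv₀, h1] at this
        exact this
      rw [Algebra.smul_def, S.red_mul (S.algebraMap_mem hainv) huO, h2, ← hcb]
      exact inv_mul_cancel₀ (by rw [hcb]; exact hred)
    · rw [gd_divOf_smul S.hF (inv_ne_zero ha0) hu0, hdiv]
  · -- the reduction is transcendental: contradiction
    exfalso
    have htr : Transcendental k (S.red u) := halg
    set n : ℕ := C.toNat + 1 with hn
    obtain ⟨B, hB, w, hw, hBw⟩ := hC n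
    have hw0 : S.red w ≠ 0 := by rw [hw]; exact one_ne_zero
    have hwO : w ∈ S.Ov := S.mem_of_red_ne_zero hw0
    have hwinvO : w⁻¹ ∈ S.Ov := S.inv_mem_of_red_ne_zero hw0
    have hwne : w ≠ 0 := S.ne_zero_of_red_ne_zero hw0
    set z : F := u ^ n * w⁻¹ with hz
    have hzO : z ∈ S.Ov := mul_mem (pow_mem huO n) hwinvO
    have hzred : S.red z = S.red u ^ n := by
      rw [hz, S.red_mul (pow_mem huO n) hwinvO, S.red_pow huO, S.red_inv_of_red_eq_one hw,
        mul_one]
    have hzdiv : divOf S.hF z = B := by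
      rw [hz, divOf_mul S.hF (pow_ne_zero n hu0) (inv_ne_zero hwne), gd_divOf_pow, divOf_inv,
        hdiv, ← hBw]
      abel
    have h1 := gd_le_degree_poleDiv S huO hzO n hzred htr
    have h2 : Divisor.degree (poleDiv S.hF z) ≤ C := by
      apply Bdd.degree_poleDiv_le S.hF
      rw [hzdiv]
      exact hB
    have h3 : (n : ℤ) ≤ C := le_trans h1 h2
    rw [hn] at h3
    push_cast at h3
    have := Int.self_le_toNat C
    omega

/-- **Boundedness theorem**: a principal divisor in the subgroup generated by the `Λ Y` (`Λ` good,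
`Y` ANY divisor of degree `0`) is the divisor of a function with reduction `1`. -/
theorem mem_unitDiv_of_mem_closure [IsAlgClosed k] (𝓛 : Set (Divisor K F →+ Divisor K F))
    (h𝓛 : ∀ Λ ∈ 𝓛, IsGoodMap S Λ) {f : F} (hf : f ≠ 0)
    (hv : divOf S.hF f ∈ AddSubgroup.closure (genDiv 𝓛)) :
    divOf S.hF f ∈ unitDiv S := by
  obtain ⟨C, hC⟩ := exists_bdd_of_mem_closure S 𝓛 h𝓛 hv
  exact mem_unitDiv_of_bdd S hf C hC

/-- **Core of S37 (abstract)**: with the KEY LEMMA for the exponent `m`, a divisor `D` in the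
subgroup generated by the `Λ Y` such that `m • D` is principal is itself principal. -/
theorem principal_of_mem_closure [IsAlgClosed k] (𝓛 : Set (Divisor K F →+ Divisor K F))
    (h𝓛 : ∀ Λ ∈ 𝓛, IsGoodMap S Λ) (m : ℕ) (hm : m ≠ 0)
    (hKL : ∀ w : F, S.red w = 1 → (∀ P : Place K F, (m : ℤ) ∣ P.ord w) → ∃ h : F, h ^ m = w)
    {D : Divisor K F} (hD : D ∈ AddSubgroup.closure (genDiv 𝓛)) {f : F} (hf : f ≠ 0)
    (hmD : m • D = divOf S.hF f) :
    ∃ h : F, h ≠ 0 ∧ D = divOf S.hF h := by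
  have hmem : divOf S.hF f ∈ AddSubgroup.closure (genDiv 𝓛) := by
    rw [← hmD]
    exact AddSubgroup.nsmul_mem _ hD m
  obtain ⟨w, hw, hfw⟩ := mem_unitDiv_of_mem_closure S 𝓛 h𝓛 hf hmem
  have hw0 : w ≠ 0 := S.ne_zero_of_red_ne_zero (by rw [hw]; exact one_ne_zero)
  have hdvd : ∀ P : Place K F, (m : ℤ) ∣ P.ord w := by
    intro P
    refine ⟨D P, ?_⟩
    rw [← divOf_apply S.hF w P, ← hfw, ← hmD, Finsupp.smul_apply, nsmul_eq_mul]
  obtain ⟨h, hh⟩ := hKL w hw hdvd
  have hh0 : h ≠ 0 := by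
    rintro rfl
    rw [zero_pow hm] at hh
    exact hw0 hh.symm
  refine ⟨h, hh0, ?_⟩
  have e : m • D = m • divOf S.hF h := by
    rw [hmD, hfw, ← hh, gd_divOf_pow]
  apply Finsupp.ext
  intro v
  have e' := congrArg (fun X : Divisor K F => X v) e
  simp only [Finsupp.smul_apply, nsmul_eq_mul] at e'
  exact mul_left_cancel₀ (Int.natCast_ne_zero.mpr hm) e'

end Fermat.Agent.S37
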