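/-
S37 (helper7), step 3b: the basic positive bounded maps of divisors
(semilinear automorphisms, correspondences) and their action on principal divisors.
-/
import Mathlib
import Fermat.Agent.S37.Bounded
import Fermat.Agent.F3.Galois.NormDesc

set_option autoImplicit false
set_option linter.style.haveILetI false

noncomputable section

open AlgebraicCurve Fermat.Agent.RR

namespace Fermat.Agent.S37

variable {K F F' : Type*} [Field K] [Field F] [Field F'] [Algebra K F] [Algebra K F']

/-! ### closure properties of `IsPosBdd` -/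

theorem IsPosBdd.mono (h : IsRRField K F) {c c' : ℤ} {Λ : Divisor K F →+ Divisor K F}
    (hΛ : IsPosBdd c Λ) (hcc : c ≤ c') : IsPosBdd c' Λ :=
  ⟨hΛ.nonneg, fun E hE => le_trans (hΛ.degree_le E hE)
    (mul_le_mul_of_nonneg_right hcc (degree_nonneg_of_nonneg h hE))⟩

theorem IsPosBdd.add {c c' : ℤ} {Λ Λ' : Divisor K F →+ Divisor K F}
    (hΛ : IsPosBdd c Λ) (hΛ' : IsPosBdd c' Λ') : IsPosBdd (c + c') (Λ + Λ') := by
  refine ⟨fun E hE => ?_, fun E hE => ?_⟩
  · rw [AddMonoidHom.add_apply]
    exact add_nonneg (hΛ.nonneg E hE) (hΛ'.nonneg E hE)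
  · rw [AddMonoidHom.add_apply, map_add, add_mul]
    exact add_le_add (hΛ.degree_le E hE) (hΛ'.degree_le E hE)

theorem IsPosBdd.comp {c c' : ℤ} (hc : 0 ≤ c) {Λ Λ' : Divisor K F →+ Divisor K F}
    (hΛ : IsPosBdd c Λ) (hΛ' : IsPosBdd c' Λ') : IsPosBdd (c * c') (Λ.comp Λ') := by
  refine ⟨fun E hE => ?_, fun E hE => ?_⟩
  · rw [AddMonoidHom.comp_apply]
    exact hΛ.nonneg _ (hΛ'.nonneg E hE)
  · rw [AddMonoidHom.comp_apply, mul_assoc]
    exact le_trans (hΛ.degree_le _ (hΛ'.nonneg E hE))
      (mul_le_mul_of_nonneg_left (hΛ'.degree_le E hE) hc)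

theorem isPosBdd_id : IsPosBdd (1 : ℤ) (AddMonoidHom.id (Divisor K F)) :=
  ⟨fun _ hE => hE, fun E _ => by rw [one_mul]; rfl⟩

theorem isPosBdd_nsmul_id (n : ℕ) : IsPosBdd (n : ℤ) (n • AddMonoidHom.id (Divisor K F)) := by
  refine ⟨fun E hE => ?_, fun E _ => ?_⟩
  · rw [AddMonoidHom.smul_apply]
    exact nsmul_nonneg hE n
  · rw [AddMonoidHom.smul_apply, AddMonoidHom.id_apply, map_nsmul, nsmul_eq_mul]

/-! ### semilinear automorphisms -/

/-- the action of a semilinear automorphism on divisors, as an additive map. -/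
def smulHom (g : SemilinearAut K F) : Divisor K F →+ Divisor K F :=
  DistribSMul.toAddMonoidHom (Divisor K F) g

@[simp] theorem smulHom_apply (g : SemilinearAut K F) (D : Divisor K F) :
    smulHom g D = g • D := rfl

theorem isPosBdd_smulHom (g : SemilinearAut K F) : IsPosBdd (1 : ℤ) (smulHom g) := by
  refine ⟨fun E hE => ?_, fun E _ => ?_⟩
  · rw [Finsupp.le_def]
    intro v
    rw [smulHom_apply, SemilinearAut.divisor_smul_apply]
    exact (Finsupp.le_def.mp hE) _
  · rw [smulHom_apply, SemilinearAut.degree_smul, one_mul]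

/-- `div (g • f) = g • div f`. -/
theorem divOf_smul_aut (h : IsRRField K F) (g : SemilinearAut K F) (f : F) :
    divOf h (g • f) = g • divOf h f := by
  apply Finsupp.ext
  intro w
  rw [SemilinearAut.divisor_smul_apply, divOf_apply, divOf_apply]
  have h1 := SemilinearAut.ord_smul g (g⁻¹ • w) f
  rw [smul_inv_smul] at h1
  exact h1

/-! ### correspondences -/

section Corr

variable [HasPrincipalDivisors K F']
variable (φ ψ : F →ₐ[K] F') (hφ : φ.toRingHom.IsIntegral) (hψ : ψ.toRingHom.IsIntegral)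

theorem pullbackAlong_nonneg {D : Divisor K F} (hD : 0 ≤ D) :
    0 ≤ Divisor.pullbackAlong φ hφ D := by
  rw [Finsupp.le_def]
  intro w
  rw [Divisor.pullbackAlong_apply]
  have h1 : (0 : ℤ) ≤ D (w.restrictAlong φ hφ) := (Finsupp.le_def.mp hD) _
  exact mul_nonneg (Int.natCast_nonneg _) h1

theorem pushforwardAlong_nonneg {D : Divisor K F'} (hD : 0 ≤ D) :
    0 ≤ Divisor.pushforwardAlong ψ hψ D := by
  classical
  have e : D = ∑ w ∈ D.support, Finsupp.single w (D w) := by
    conv_lhs => rw [← Finsupp.sum_single D]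
    rfl
  rw [e, map_sum]
  refine Finset.sum_nonneg fun w _ => ?_
  rw [Divisor.pushforwardAlong_single, Finsupp.le_def]
  intro v
  rw [Finsupp.single_apply]
  split_ifs
  · have h1 : (0 : ℤ) ≤ D w := (Finsupp.le_def.mp hD) _
    exact mul_nonneg h1 (Int.natCast_nonneg _)
  · exact le_refl _

theorem isPosBdd_correspondence (hFI : FundamentalIdentityAlong K φ hφ) :
    IsPosBdd (finrankAlong K φ : ℤ) (Divisor.correspondence φ ψ hφ hψ) := by
  refine ⟨fun E hE => ?_, fun E _ => ?_⟩
  · rw [Divisor.correspondence_apply]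
    exact pushforwardAlong_nonneg ψ hψ (pullbackAlong_nonneg φ hφ hE)
  · rw [Divisor.degree_correspondence φ ψ hφ hψ hFI]

/-- the correspondence `ψ_* φ^*` sends `div f` to `div (Norm_ψ (φ f))`. -/
theorem correspondence_divOf (h : IsRRField K F) (hfin : FiniteAlong K ψ)
    (hN : NormFormulaAlong K ψ hfin) {f : F} (hf : f ≠ 0) :
    Divisor.correspondence φ ψ hφ hψ (divOf h f) =
      divOf h (Fermat.Agent.F3G.normAlong ψ (φ f)) := by
  apply Finsupp.ext
  intro v
  rw [divOf_apply]
  exact Fermat.Agent.F3G.correspondence_apply_eq_ord_norm φ ψ hφ hψ hfin hN hf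
    (fun w => divOf_apply h f w) v

end Corr

end Fermat.Agent.S37
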