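/-
S37 (helper7), step 3a: the Gauss valuation of the modular function field `F_N / ℚ̄` as a `GData`
(unconditional, any prime `ℓ`), and the dictionary `red = gaussResFun`.
-/
import Mathlib
import Fermat.Agent.S37.Bounded
import Fermat.Agent.Lib.GaussInt.Bundle
import Fermat.Agent.Lib.RR.OfModularBar
import Fermat.Agent.Lib.FrobTrace.Residue

set_option autoImplicit false
set_option linter.style.haveILetI false
set_option synthInstance.maxHeartbeats 400000

noncomputable section

namespace Fermat.Agent.S37

open ModularCurve HahnSeries AlgebraicCurve Fermat.Agent.RR Fermat.Agent.GaussInt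

local notation "Qb" => AlgebraicClosure ℚ

variable (A : ValuationSubring Qb) (ℓ N : ℕ) [NeZero N]
variable (hℓ : ℓ.Prime) (hA : A.LiesOverPrime ℓ)

/-- The Gauss valuation of `F_N` at a place over `ℓ`, with residue map to `k((q))`. -/
def modGData :
    GData Qb (modularFunctionFieldBar N) (IsLocalRing.ResidueField A)
      (LaurentSeries (IsLocalRing.ResidueField A)) where
  A := A
  Ov := gaussValSub (gaussHyp_modular N hℓ hA)
  res := IsLocalRing.residue A
  ρ := gaussValRes (gaussHyp_modular N hℓ hA)
  hF := Fermat.Agent.RRMod.isRRField_bar N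
  res_surj := IsLocalRing.residue_surjective
  mem_Ov_iff := gaussValSub_mem_iff_const (gaussHyp_modular N hℓ hA)
  ρ_algebraMap := fun c hc _ => gaussResFun_algebraMap hc
  ρ_eq_zero_iff := gaussValRes_eq_zero_iff (gaussHyp_modular N hℓ hA)
  scale := gaussValSub_scale (gaussHyp_modular N hℓ hA)

theorem mem_modGData_Ov_iff (f : modularFunctionFieldBar N) :
    f ∈ (modGData A ℓ N hℓ hA).Ov ↔
      (f : LaurentSeries Qb) ∈ gaussSub A (modularFunctionFieldBar N) :=
  Iff.rfl

theorem modGData_red_of_mem {f : modularFunctionFieldBar N}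
    (hf : (f : LaurentSeries Qb) ∈ gaussSub A (modularFunctionFieldBar N)) :
    (modGData A ℓ N hℓ hA).red f =
      gaussResFun A (modularFunctionFieldBar N) (f : LaurentSeries Qb) := by
  rw [(modGData A ℓ N hℓ hA).red_of_mem ((mem_modGData_Ov_iff A ℓ N hℓ hA f).mpr hf)]
  rfl

/-- `red f = 1` iff `f` lies in the Gauss ring with residue `1`. -/
theorem modGData_red_eq_one_iff (f : modularFunctionFieldBar N) :
    (modGData A ℓ N hℓ hA).red f = 1 ↔
      (f : LaurentSeries Qb) ∈ gaussSub A (modularFunctionFieldBar N) ∧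
        gaussResFun A (modularFunctionFieldBar N) (f : LaurentSeries Qb) = 1 := by
  constructor
  · intro h
    have h0 : (modGData A ℓ N hℓ hA).red f ≠ 0 := by rw [h]; exact one_ne_zero
    have hmem := (modGData A ℓ N hℓ hA).mem_of_red_ne_zero h0
    refine ⟨hmem, ?_⟩
    rw [← modGData_red_of_mem A ℓ N hℓ hA hmem, h]
  · rintro ⟨hmem, hres⟩
    rw [modGData_red_of_mem A ℓ N hℓ hA hmem, hres]

/-- `red f ≠ 0` iff `f` lies in the Gauss ring with nonzero residue. -/
theorem modGData_red_ne_zero_iff (f : modularFunctionFieldBar N) :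
    (modGData A ℓ N hℓ hA).red f ≠ 0 ↔
      (f : LaurentSeries Qb) ∈ gaussSub A (modularFunctionFieldBar N) ∧
        gaussResFun A (modularFunctionFieldBar N) (f : LaurentSeries Qb) ≠ 0 := by
  constructor
  · intro h0
    have hmem := (modGData A ℓ N hℓ hA).mem_of_red_ne_zero h0
    refine ⟨hmem, ?_⟩
    rw [← modGData_red_of_mem A ℓ N hℓ hA hmem]
    exact h0
  · rintro ⟨hmem, hres⟩
    rw [modGData_red_of_mem A ℓ N hℓ hA hmem]
    exact hres

end Fermat.Agent.S37
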