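/-
S37 (helper7), step 1: PURE ALGEBRA.  `SpecializationExists` is reduced to the statement
"the relation subgroup `H` meets the `p`-power torsion trivially", by taking `J' := J ⧸ H`.

`H` is the additive subgroup generated by `(τ - 1) x` (`τ` in the inertia group of `A`) and by
`(σ₀² - T_ℓ σ₀ + ℓ) x` (`σ₀` a fixed Frobenius at `A`).
-/
import Mathlib
import Fermat.Prelude.Def_HeckeGalois_EichlerShimura

set_option autoImplicit false
set_option linter.style.haveILetI false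

noncomputable section

namespace Fermat.Agent.S37

open ModularCurve

variable {K L : Type*} [Field K] [Field L] [Algebra K L]
variable (J : Type) [AddCommGroup J] [Module HeckeAlg J]
  [DistribMulAction (L ≃ₐ[K] L) J] [SMulCommClass (L ≃ₐ[K] L) HeckeAlg J]

/-- The generators of the relation subgroup: `(τ - 1) x` for `τ` in the inertia group, and
`(σ₀² - T_ℓ σ₀ + ℓ) x`. -/
def relGen (A : ValuationSubring L) (ℓ : ℕ) (hℓ : ℓ.Prime) (σ₀ : L ≃ₐ[K] L) : Set J :=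
  {y | ∃ τ ∈ A.inertiaSubgroupIn K, ∃ x : J, y = τ • x - x} ∪
    {y | ∃ x : J, y = σ₀ • σ₀ • x - heckeGen ⟨ℓ, hℓ⟩ • (σ₀ • x) + ℓ • x}

/-- The relation subgroup (as an additive subgroup). -/
def relAddSub (A : ValuationSubring L) (ℓ : ℕ) (hℓ : ℓ.Prime) (σ₀ : L ≃ₐ[K] L) : AddSubgroup J :=
  AddSubgroup.closure (relGen J A ℓ hℓ σ₀)

variable {J}

theorem hecke_smul_mem_relGen (A : ValuationSubring L) (ℓ : ℕ) (hℓ : ℓ.Prime) (σ₀ : L ≃ₐ[K] L)
    (t : HeckeAlg) {y : J} (hy : y ∈ relGen J A ℓ hℓ σ₀) : t • y ∈ relGen J A ℓ hℓ σ₀ := by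
  rcases hy with ⟨τ, hτ, x, rfl⟩ | ⟨x, rfl⟩
  · left
    refine ⟨τ, hτ, t • x, ?_⟩
    rw [smul_sub, smul_comm τ t x]
  · right
    refine ⟨t • x, ?_⟩
    rw [smul_add, smul_sub, smul_comm σ₀ t x, smul_comm σ₀ t (σ₀ • x),
      smul_comm t (heckeGen ⟨ℓ, hℓ⟩) (σ₀ • x), smul_comm t ℓ x]

theorem hecke_smul_mem_relAddSub (A : ValuationSubring L) (ℓ : ℕ) (hℓ : ℓ.Prime)
    (σ₀ : L ≃ₐ[K] L) (t : HeckeAlg) {y : J} (hy : y ∈ relAddSub J A ℓ hℓ σ₀) :
    t • y ∈ relAddSub J A ℓ hℓ σ₀ := by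
  unfold relAddSub at hy ⊢
  induction hy using AddSubgroup.closure_induction with
  | mem y hy => exact AddSubgroup.subset_closure (hecke_smul_mem_relGen A ℓ hℓ σ₀ t hy)
  | zero => rw [smul_zero]; exact AddSubgroup.zero_mem _
  | add y z _ _ hy hz => rw [smul_add]; exact AddSubgroup.add_mem _ hy hz
  | neg y _ hy => rw [smul_neg]; exact AddSubgroup.neg_mem _ hy

variable (J) in
/-- The relation subgroup as a Hecke submodule. -/
def relSub (A : ValuationSubring L) (ℓ : ℕ) (hℓ : ℓ.Prime) (σ₀ : L ≃ₐ[K] L) :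
    Submodule HeckeAlg J where
  carrier := relAddSub J A ℓ hℓ σ₀
  zero_mem' := AddSubgroup.zero_mem _
  add_mem' := fun ha hb => AddSubgroup.add_mem _ ha hb
  smul_mem' := fun t _ hy => hecke_smul_mem_relAddSub A ℓ hℓ σ₀ t hy

theorem mem_relSub_iff (A : ValuationSubring L) (ℓ : ℕ) (hℓ : ℓ.Prime) (σ₀ : L ≃ₐ[K] L)
    (y : J) : y ∈ relSub J A ℓ hℓ σ₀ ↔ y ∈ relAddSub J A ℓ hℓ σ₀ := Iff.rfl

/-- conjugation by an element of the decomposition group preserves the inertia group. -/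
theorem conj_mem_inertiaSubgroupIn (A : ValuationSubring L) {σ τ : L ≃ₐ[K] L}
    (hσ : σ ∈ A.decompositionSubgroup K) (hτ : τ ∈ A.inertiaSubgroupIn K) :
    σ * τ * σ⁻¹ ∈ A.inertiaSubgroupIn K := by
  obtain ⟨τ', hτ', rfl⟩ := hτ
  refine ⟨⟨σ, hσ⟩ * τ' * ⟨σ, hσ⟩⁻¹, ?_, rfl⟩
  have hn : (A.inertiaSubgroup K).Normal := by
    unfold ValuationSubring.inertiaSubgroup
    infer_instance
  exact hn.conj_mem τ' hτ' ⟨σ, hσ⟩

/-- two Frobenius elements at `A` differ by an element of the inertia group. -/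
theorem inv_mul_mem_inertiaSubgroupIn (A : ValuationSubring L) {ℓ : ℕ} {σ σ' : L ≃ₐ[K] L}
    (hσ : A.IsFrobeniusAt σ ℓ) (hσ' : A.IsFrobeniusAt σ' ℓ) :
    σ⁻¹ * σ' ∈ A.inertiaSubgroupIn K := by
  obtain ⟨h1, h2⟩ := hσ
  obtain ⟨h1', h2'⟩ := hσ'
  refine ⟨⟨σ, h1⟩⁻¹ * ⟨σ', h1'⟩, ?_, rfl⟩
  unfold ValuationSubring.inertiaSubgroup
  refine MonoidHom.mem_ker.mpr ?_
  ext x
  show ((⟨σ, h1⟩ : A.decompositionSubgroup K)⁻¹ * ⟨σ', h1'⟩) • x = x
  rw [mul_smul, h2' x, ← h2 x, inv_smul_smul]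

theorem galois_smul_mem_relAddSub (A : ValuationSubring L) (ℓ : ℕ) (hℓ : ℓ.Prime)
    {σ₀ : L ≃ₐ[K] L} (hσ₀ : σ₀ ∈ A.decompositionSubgroup K) {y : J}
    (hy : y ∈ relAddSub J A ℓ hℓ σ₀) : σ₀ • y ∈ relAddSub J A ℓ hℓ σ₀ := by
  unfold relAddSub at hy ⊢
  induction hy using AddSubgroup.closure_induction with
  | mem y hy =>
    apply AddSubgroup.subset_closure
    rcases hy with ⟨τ, hτ, x, rfl⟩ | ⟨x, rfl⟩
    · left
      refine ⟨σ₀ * τ * σ₀⁻¹, conj_mem_inertiaSubgroupIn A hσ₀ hτ, σ₀ • x, ?_⟩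
      rw [smul_sub, mul_smul, mul_smul, inv_smul_smul]
    · right
      refine ⟨σ₀ • x, ?_⟩
      rw [smul_add, smul_sub, smul_comm σ₀ (heckeGen ⟨ℓ, hℓ⟩) (σ₀ • x), smul_comm σ₀ ℓ x]
  | zero => rw [smul_zero]; exact AddSubgroup.zero_mem _
  | add y z _ _ hy hz => rw [smul_add]; exact AddSubgroup.add_mem _ hy hz
  | neg y _ hy => rw [smul_neg]; exact AddSubgroup.neg_mem _ hy

/-- the Galois action of `σ` as a Hecke-linear map. -/
def galHeckeLin (σ : L ≃ₐ[K] L) : J →ₗ[HeckeAlg] J where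
  toFun x := σ • x
  map_add' := smul_add σ
  map_smul' t x := smul_comm σ t x

@[simp] theorem galHeckeLin_apply (σ : L ≃ₐ[K] L) (x : J) : galHeckeLin σ x = σ • x := rfl

/-- **S37, algebraic reduction**: if the relation subgroup meets the `p`-power torsion trivially,
then a specialization exists (`J' = J ⧸ H`). -/
theorem exists_specialization_of_core (p : ℕ) (A : ValuationSubring L) (ℓ : ℕ) (hℓ : ℓ.Prime)
    (σ₀ : L ≃ₐ[K] L) (hσ₀ : A.IsFrobeniusAt σ₀ ℓ)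
    (hcore : ∀ x : J, (∃ n : ℕ, p ^ n • x = 0) → x ∈ relAddSub J A ℓ hℓ σ₀ → x = 0) :
    ∃ (J' : Type) (_ : AddCommGroup J') (_ : Module HeckeAlg J') (sp : J →+ J')
      (F : J' →+ J'),
      IsSpecialization (K := K) p J J' A ℓ sp F ∧ SpecialFibreRelation J' ℓ hℓ F := by
  have hdec : σ₀ ∈ A.decompositionSubgroup K := hσ₀.mem_decompositionSubgroup
  set H : Submodule HeckeAlg J := relSub J A ℓ hℓ σ₀ with hH
  have hstab : H ≤ H.comap (galHeckeLin σ₀) := fun y hy =>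
    galois_smul_mem_relAddSub A ℓ hℓ hdec hy
  refine ⟨J ⧸ H, inferInstance, inferInstance, H.mkQ.toAddMonoidHom,
    (H.mapQ H (galHeckeLin σ₀) hstab).toAddMonoidHom, ⟨?_, ?_, ?_, ?_⟩, ?_⟩
  · intro T x
    exact H.mkQ.map_smul T x
  · intro σ hσ x
    show H.mkQ (σ • x) = H.mkQ x
    rw [← sub_eq_zero, ← map_sub, Submodule.mkQ_apply, Submodule.Quotient.mk_eq_zero]
    exact AddSubgroup.subset_closure (Or.inl ⟨σ, hσ, x, rfl⟩)
  · intro σ hσ x
    show H.mkQ (σ • x) = H.mapQ H (galHeckeLin σ₀) hstab (H.mkQ x)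
    rw [Submodule.mkQ_apply, Submodule.mkQ_apply, Submodule.mapQ_apply, galHeckeLin_apply,
      ← sub_eq_zero, ← Submodule.Quotient.mk_sub, Submodule.Quotient.mk_eq_zero]
    have hτ := inv_mul_mem_inertiaSubgroupIn A hσ₀ hσ
    have h1 : σ • x - σ₀ • x = σ₀ • ((σ₀⁻¹ * σ) • x - x) := by
      rw [smul_sub, mul_smul, smul_inv_smul]
    rw [h1]
    exact galois_smul_mem_relAddSub A ℓ hℓ hdec
      (AddSubgroup.subset_closure (Or.inl ⟨σ₀⁻¹ * σ, hτ, x, rfl⟩))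
  · intro x hx hsp
    refine hcore x hx ?_
    have : H.mkQ x = 0 := hsp
    rwa [Submodule.mkQ_apply, Submodule.Quotient.mk_eq_zero] at this
  · intro y
    obtain ⟨x, rfl⟩ := H.mkQ_surjective y
    show H.mapQ H (galHeckeLin σ₀) hstab (H.mapQ H (galHeckeLin σ₀) hstab (H.mkQ x)) -
      heckeGen ⟨ℓ, hℓ⟩ • H.mapQ H (galHeckeLin σ₀) hstab (H.mkQ x) + ℓ • H.mkQ x = 0
    rw [Submodule.mkQ_apply, Submodule.mapQ_apply, Submodule.mapQ_apply, galHeckeLin_apply,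
      galHeckeLin_apply, ← Submodule.Quotient.mk_smul, ← Submodule.Quotient.mk_sub]
    have h2 : (ℓ • Submodule.Quotient.mk x : J ⧸ H) = Submodule.Quotient.mk (ℓ • x) := by
      rw [← Submodule.mkQ_apply, ← Submodule.mkQ_apply, map_nsmul]
    rw [h2, ← Submodule.Quotient.mk_add, Submodule.Quotient.mk_eq_zero]
    exact AddSubgroup.subset_closure (Or.inr ⟨x, rfl⟩)

end Fermat.Agent.S37
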