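/-
S37 (helper7), step 4: ASSEMBLY.   `KeyLemmaAt N`  ⟹  the frozen statement S37 at level `N`.

The relation subgroup `H ⊆ J₀(N)(ℚ̄)` (generated by `(τ - 1) x`, `τ` in inertia, and
`(σ₀² - T_ℓ σ₀ + ℓ) x`) is represented by the subgroup of divisors generated by `Λ Y`,
`Λ ∈ {τ - 1, σ₀² - T_ℓ σ₀ + ℓ}`; both kinds of maps are good maps for the Gauss valuation
(inertia acts trivially on residues; Kronecker congruence), so the boundedness theorem applies.
-/
import Mathlib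
import Fermat.Agent.S37.Quotient
import Fermat.Agent.S37.ModGData
import Fermat.Agent.S37.Maps
import Fermat.Agent.Lib.GaussInt.FrobPowFinal
import Fermat.Agent.Lib.HeckeInputs.Qbar
import Fermat.Agent.Lib.FrobDensity.Bridge

set_option autoImplicit false
set_option linter.style.haveILetI false
set_option linter.unusedSectionVars false
set_option synthInstance.maxHeartbeats 400000

noncomputable section

namespace Fermat.Agent.S37

open ModularCurve AlgebraicCurve HahnSeries Fermat.Agent.F3 Fermat.Agent.F3G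
  Fermat.Agent.GaussInt Fermat.Agent.Kronecker Fermat.Agent.RR Fermat.Agent.GaussIntFP

local notation "Qb" => AlgebraicClosure ℚ

variable {N : ℕ} [NeZero N]

/-- the semilinear automorphism of `F_N` attached to `σ ∈ G_ℚ`. -/
abbrev gal (N : ℕ) (σ : GQ) : SemilinearAut Qb (FBar N) :=
  arithmeticGalois (modularFunctionFieldFull N) σ

/-! ### the inertia maps -/

/-- the divisor-level map `τ - 1`. -/
def inertiaMap (N : ℕ) (τ : GQ) : Divisor Qb (FBar N) →+ Divisor Qb (FBar N) :=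
  smulHom (gal N τ) - AddMonoidHom.id _

theorem inertiaMap_apply (τ : GQ) (D : Divisor Qb (FBar N)) :
    inertiaMap N τ D = gal N τ • D - D := rfl

theorem isBddMap_inertiaMap (τ : GQ) : IsBddMap (inertiaMap N τ) :=
  ⟨1, smulHom (gal N τ), AddMonoidHom.id _, zero_le_one, isPosBdd_smulHom _, isPosBdd_id,
    fun _ => rfl⟩

section Good

variable (A : ValuationSubring Qb) (ℓ : ℕ) (hℓ : ℓ.Prime) (hA : A.LiesOverPrime ℓ)

theorem isGoodMap_inertiaMap (τ : GQ) (hτ : τ ∈ A.inertiaSubgroupIn ℚ) :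
    IsGoodMap (modGData A ℓ N hℓ hA) (inertiaMap N τ) := by
  refine ⟨isBddMap_inertiaMap τ, fun w hw => ?_⟩
  set S := modGData A ℓ N hℓ hA with hS
  obtain ⟨c, hc, hred⟩ := S.exists_scale hw
  set u : FBar N := c⁻¹ • w with hu
  have hu0 : u ≠ 0 := S.ne_zero_of_red_ne_zero hred
  have hdiv : divOf S.hF u = divOf S.hF w := gd_divOf_smul S.hF (inv_ne_zero hc) hw
  obtain ⟨humem, hures⟩ := (modGData_red_ne_zero_iff A ℓ N hℓ hA u).mp hred
  have hstab : ∀ y ∈ modularFunctionFieldBar N,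
      coeffMap ((τ : Qb ≃ₐ[ℚ] Qb) : Qb →+* Qb) y ∈ modularFunctionFieldBar N := fun y hy =>
    coeffMap_mem_laurentBaseChange τ hy
  have hτcoe : ((gal N τ • u : FBar N) : LaurentSeries Qb) =
      coeffMap ((τ : Qb ≃ₐ[ℚ] Qb) : Qb →+* Qb) (u : LaurentSeries Qb) :=
    coe_arithmeticGalois_smul _ τ u
  have hτmem : ((gal N τ • u : FBar N) : LaurentSeries Qb) ∈
      gaussSub A (modularFunctionFieldBar N) := by
    rw [hτcoe]
    exact coeffMap_mem_gaussSub_of_inertia τ hτ hstab humem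
  have hτres : gaussResFun A (modularFunctionFieldBar N)
      ((gal N τ • u : FBar N) : LaurentSeries Qb) =
      gaussResFun A (modularFunctionFieldBar N) (u : LaurentSeries Qb) := by
    rw [hτcoe]
    exact gaussResFun_inertia τ hτ hstab humem
  have hτu0 : gal N τ • u ≠ 0 := by simpa using hu0
  have h1 : S.red (gal N τ • u) = S.red u := by
    rw [modGData_red_of_mem A ℓ N hℓ hA hτmem, modGData_red_of_mem A ℓ N hℓ hA humem, hτres]
  refine ⟨(gal N τ • u) * u⁻¹, ?_, ?_⟩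
  · have hτred : S.red (gal N τ • u) ≠ 0 := by rw [h1]; exact hred
    rw [S.red_mul (S.mem_of_red_ne_zero hτred) (S.inv_mem_of_red_ne_zero hred),
      S.red_inv (S.mem_of_red_ne_zero hred) (S.inv_mem_of_red_ne_zero hred) hu0, h1]
    exact mul_inv_cancel₀ hred
  · rw [divOf_mul S.hF hτu0 (inv_ne_zero hu0), divOf_inv, divOf_smul_aut, hdiv, inertiaMap_apply]
    abel

end Good

/-! ### the Frobenius map -/

section Frob

variable (ℓ : ℕ) [NeZero ℓ]
  [HasPrincipalDivisors Qb (laurentBaseChange Qb (modularFunctionFieldFull (N * ℓ)))]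
  (hα : HeckeAlphaBarIntegral Qb N ℓ) (hβ : HeckeBetaBarIntegral Qb N ℓ)

/-- the divisor-level map `σ² - T_ℓ σ + ℓ`. -/
def frobMap (σ : GQ) : Divisor Qb (FBar N) →+ Divisor Qb (FBar N) :=
  ((smulHom (gal N σ)).comp (smulHom (gal N σ)) + ℓ • AddMonoidHom.id _) -
    (Divisor.correspondence (heckeBetaBar Qb N ℓ) (heckeAlphaBar Qb N ℓ) hβ hα).comp
      (smulHom (gal N σ))

theorem frobMap_apply (σ : GQ) (D : Divisor Qb (FBar N)) :
    frobMap ℓ hα hβ σ D = gal N σ • gal N σ • D + ℓ • D -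
      Divisor.correspondence (heckeBetaBar Qb N ℓ) (heckeAlphaBar Qb N ℓ) hβ hα
        (gal N σ • D) := rfl

theorem isBddMap_frobMap (hFI : FundamentalIdentityAlong Qb (heckeBetaBar Qb N ℓ) hβ) (σ : GQ) :
    IsBddMap (frobMap ℓ hα hβ σ) := by
  have hF : IsRRField Qb (FBar N) := Fermat.Agent.RRMod.isRRField_bar N
  set r : ℤ := (finrankAlong Qb (heckeBetaBar Qb N ℓ) : ℤ) with hr
  have hr0 : 0 ≤ r := Int.natCast_nonneg _
  have h1 : IsPosBdd ((1 : ℤ) * 1 + (ℓ : ℤ))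
      ((smulHom (gal N σ)).comp (smulHom (gal N σ)) + ℓ • AddMonoidHom.id _) :=
    ((isPosBdd_smulHom (gal N σ)).comp zero_le_one (isPosBdd_smulHom (gal N σ))).add
      (isPosBdd_nsmul_id ℓ)
  have h2 : IsPosBdd (r * 1)
      ((Divisor.correspondence (heckeBetaBar Qb N ℓ) (heckeAlphaBar Qb N ℓ) hβ hα).comp
        (smulHom (gal N σ))) :=
    (isPosBdd_correspondence _ _ hβ hα hFI).comp hr0 (isPosBdd_smulHom (gal N σ))
  refine ⟨1 + ℓ + r, _, _, by positivity, h1.mono hF ?_, h2.mono hF ?_, fun _ => rfl⟩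
  · have : (0 : ℤ) ≤ r := hr0
    omega
  · have : (0 : ℤ) ≤ (ℓ : ℤ) := Int.natCast_nonneg _
    omega

variable (A : ValuationSubring Qb) (hℓ : ℓ.Prime) (hA : A.LiesOverPrime ℓ)

theorem isGoodMap_frobMap (hℓN : ¬ ℓ ∣ N)
    (hFI : FundamentalIdentityAlong Qb (heckeBetaBar Qb N ℓ) hβ)
    (hfin : FiniteAlong Qb (heckeAlphaBar Qb N ℓ))
    (hN : NormFormulaAlong Qb (heckeAlphaBar Qb N ℓ) hfin)
    {σ : GQ} (hσ : A.IsFrobeniusAt σ ℓ) :
    IsGoodMap (modGData A ℓ N hℓ hA) (frobMap ℓ hα hβ σ) := by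
  refine ⟨isBddMap_frobMap ℓ hα hβ hFI σ, fun w hw => ?_⟩
  haveI : Fact ℓ.Prime := ⟨hℓ⟩
  haveI : CharP (IsLocalRing.ResidueField A) ℓ := charP_residue_of_liesOver A hℓ hA
  set S := modGData A ℓ N hℓ hA with hS
  have hσw : gal N σ • w ≠ 0 := by simpa using hw
  obtain ⟨c, hc, hred⟩ := S.exists_scale hσw
  set y : FBar N := c⁻¹ • (gal N σ • w) with hy
  have hy0 : y ≠ 0 := S.ne_zero_of_red_ne_zero hred
  have hdivy : divOf S.hF y = gal N σ • divOf S.hF w := by
    rw [hy, gd_divOf_smul S.hF (inv_ne_zero hc) hσw, divOf_smul_aut]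
  have hdivw : divOf S.hF w = (gal N σ)⁻¹ • divOf S.hF y := by
    rw [hdivy, inv_smul_smul]
  obtain ⟨hymem, hyres⟩ := (modGData_red_ne_zero_iff A ℓ N hℓ hA y).mp hred
  have hP := normProductFormula N ℓ hℓ hℓN
  obtain ⟨hzmem, hzres⟩ := frobRatio_mem_gaussSub A ℓ hP hσ y hymem hyres
  set z : FBar N := heckeFun Qb N ℓ y * (frobDen N ℓ σ y)⁻¹ with hz
  have hzred : S.red z = 1 := (modGData_red_eq_one_iff A ℓ N hℓ hA z).mpr ⟨hzmem, hzres⟩
  have hT0 : heckeFun Qb N ℓ y ≠ 0 := by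
    rw [heckeFun_apply]
    exact normAlong_ne_zero _ hfin (by simpa using hy0)
  have hD0 : frobDen N ℓ σ y ≠ 0 := frobDen_ne_zero ℓ σ hy0
  refine ⟨z⁻¹, S.red_inv_of_red_eq_one hzred, ?_⟩
  -- the divisor of `z`
  have hσy0 : gal N σ • y ≠ 0 := by simpa using hy0
  have hσiy0 : gal N σ⁻¹ • y ≠ 0 := by simpa using hy0
  have hden : divOf S.hF (frobDen N ℓ σ y) =
      gal N σ • divOf S.hF y + ℓ • ((gal N σ)⁻¹ • divOf S.hF y) := by
    have hinv : gal N σ⁻¹ = (gal N σ)⁻¹ := map_inv _ σ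
    show divOf S.hF (gal N σ • y * (gal N σ⁻¹ • y) ^ ℓ) = _
    rw [divOf_mul S.hF hσy0 (pow_ne_zero ℓ hσiy0), gd_divOf_pow, divOf_smul_aut, divOf_smul_aut,
      hinv]
  have hnum : divOf S.hF (heckeFun Qb N ℓ y) =
      Divisor.correspondence (heckeBetaBar Qb N ℓ) (heckeAlphaBar Qb N ℓ) hβ hα
        (divOf S.hF y) := by
    rw [correspondence_divOf _ _ hβ hα S.hF hfin hN hy0]
    rfl
  rw [divOf_inv, hz, divOf_mul S.hF hT0 (inv_ne_zero hD0), divOf_inv, hden, hnum, frobMap_apply,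
    ← hdivy, ← hdivw]
  abel

end Frob

end Fermat.Agent.S37
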