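/-
S37 (helper7), step 5: `KeyLemmaAt N` ⟹ the frozen statement S37 at level `N`.
-/
import Mathlib
import Fermat.Agent.S37.Assembly
import Fermat.Agent.Lib.GaussInt.Interface

set_option autoImplicit false
set_option linter.style.haveILetI false
set_option linter.unusedSectionVars false
set_option synthInstance.maxHeartbeats 400000

noncomputable section

namespace Fermat.Agent.S37

open ModularCurve AlgebraicCurve HahnSeries Fermat.Agent.F3 Fermat.Agent.F3G
  Fermat.Agent.GaussInt Fermat.Agent.Kronecker Fermat.Agent.RR Fermat.Agent.GaussIntFP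

local notation "Qb" => AlgebraicClosure ℚ

variable {N : ℕ} [NeZero N]

section Rep

variable (ℓ : ℕ) [NeZero ℓ]
  [HasPrincipalDivisors Qb (laurentBaseChange Qb (modularFunctionFieldFull (N * ℓ)))]
  (hα : HeckeAlphaBarIntegral Qb N ℓ) (hβ : HeckeBetaBarIntegral Qb N ℓ)
  (A : ValuationSubring Qb)

/-- the set of divisor-level maps: `τ - 1` (`τ` in inertia) and `σ₀² - T_ℓ σ₀ + ℓ`. -/
def mapSet (σ₀ : GQ) : Set (Divisor Qb (FBar N) →+ Divisor Qb (FBar N)) :=
  {Λ | ∃ τ ∈ A.inertiaSubgroupIn ℚ, Λ = inertiaMap N τ} ∪ {frobMap ℓ hα hβ σ₀}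

theorem isGoodMap_of_mem_mapSet (hℓ : ℓ.Prime) (hA : A.LiesOverPrime ℓ) (hℓN : ¬ ℓ ∣ N)
    (hFI : FundamentalIdentityAlong Qb (heckeBetaBar Qb N ℓ) hβ)
    (hfin : FiniteAlong Qb (heckeAlphaBar Qb N ℓ))
    (hN : NormFormulaAlong Qb (heckeAlphaBar Qb N ℓ) hfin)
    {σ₀ : GQ} (hσ₀ : A.IsFrobeniusAt σ₀ ℓ)
    (Λ : Divisor Qb (FBar N) →+ Divisor Qb (FBar N)) (hΛ : Λ ∈ mapSet ℓ hα hβ A σ₀) :
    IsGoodMap (modGData A ℓ N hℓ hA) Λ := by
  rcases hΛ with ⟨τ, hτ, rfl⟩ | hΛ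
  · exact isGoodMap_inertiaMap A ℓ hℓ hA τ hτ
  · rw [Set.mem_singleton_iff] at hΛ
    rw [hΛ]
    exact isGoodMap_frobMap ℓ hα hβ A hℓ hA hℓN hFI hfin hN hσ₀

theorem degree_inertiaMap (τ : GQ) (Y : Divisor Qb (FBar N)) (hY : Divisor.degree Y = 0) :
    Divisor.degree (inertiaMap N τ Y) = 0 := by
  rw [inertiaMap_apply, map_sub, SemilinearAut.degree_smul, hY, sub_zero]

theorem degree_frobMap (hFI : FundamentalIdentityAlong Qb (heckeBetaBar Qb N ℓ) hβ) (σ : GQ)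
    (Y : Divisor Qb (FBar N)) (hY : Divisor.degree Y = 0) :
    Divisor.degree (frobMap ℓ hα hβ σ Y) = 0 := by
  rw [frobMap_apply, map_sub, map_add, SemilinearAut.degree_smul, SemilinearAut.degree_smul,
    map_nsmul, Divisor.degree_correspondence _ _ hβ hα hFI, SemilinearAut.degree_smul, hY]
  simp

end Rep

/-- The class of a divisor of degree `0`. -/
def cls (D : Divisor Qb (FBar N)) (hD : Divisor.degree D = 0) : JZero N :=
  Pic0.mk ⟨D, hD⟩

theorem cls_add (D D' : Divisor Qb (FBar N)) (hD : Divisor.degree D = 0)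
    (hD' : Divisor.degree D' = 0) (h : Divisor.degree (D + D') = 0) :
    cls (D + D') h = cls D hD + cls D' hD' := rfl

theorem cls_neg (D : Divisor Qb (FBar N)) (hD : Divisor.degree D = 0)
    (h : Divisor.degree (-D) = 0) : cls (-D) h = -cls D hD := rfl

theorem cls_sub (D D' : Divisor Qb (FBar N)) (hD : Divisor.degree D = 0)
    (hD' : Divisor.degree D' = 0) (h : Divisor.degree (D - D') = 0) :
    cls (D - D') h = cls D hD - cls D' hD' := rfl

theorem cls_nsmul (n : ℕ) (D : Divisor Qb (FBar N)) (hD : Divisor.degree D = 0)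
    (h : Divisor.degree (n • D) = 0) : cls (n • D) h = n • cls D hD :=
  map_nsmul (QuotientAddGroup.mk' _) n (⟨D, hD⟩ : Divisor.degZero (K := Qb) (F := FBar N))

theorem cls_smul (σ : GQ) (D : Divisor Qb (FBar N)) (hD : Divisor.degree D = 0)
    (h : Divisor.degree (gal N σ • D) = 0) : cls (gal N σ • D) h = σ • cls D hD := rfl

theorem cls_eq_zero_of_eq_divOf (D : Divisor Qb (FBar N)) (hD : Divisor.degree D = 0)
    {f : FBar N} (hf : f ≠ 0) (h : D = divOf (Fermat.Agent.RRMod.isRRField_bar N) f) :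
    cls D hD = 0 := by
  refine (QuotientAddGroup.eq_zero_iff _).mpr ?_
  refine ⟨f, hf, fun v => ?_⟩
  show D v = v.ord f
  rw [h, divOf_apply]

theorem exists_divOf_of_cls_eq_zero (D : Divisor Qb (FBar N)) (hD : Divisor.degree D = 0)
    (h : cls D hD = 0) :
    ∃ f : FBar N, f ≠ 0 ∧ D = divOf (Fermat.Agent.RRMod.isRRField_bar N) f := by
  have h2 := (QuotientAddGroup.eq_zero_iff _).mp h
  obtain ⟨f, hf, hDf⟩ := h2
  refine ⟨f, hf, Finsupp.ext fun v => ?_⟩
  rw [divOf_apply]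
  exact hDf v

section Main

variable (ℓ : ℕ) [NeZero ℓ]
  [HasPrincipalDivisors Qb (laurentBaseChange Qb (modularFunctionFieldFull (N * ℓ)))]
  (hα : HeckeAlphaBarIntegral Qb N ℓ) (hβ : HeckeBetaBarIntegral Qb N ℓ)
  (A : ValuationSubring Qb)

/-- every element of the relation subgroup of `J₀(N)` is the class of a divisor in the subgroup
generated by the `Λ Y`. -/
theorem exists_rep (hcomm : HeckeOperatorsCommuteBar N) (hℓ : ℓ.Prime)
    (hFI : FundamentalIdentityAlong Qb (heckeBetaBar Qb N ℓ) hβ)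
    (hfin : FiniteAlong Qb (heckeAlphaBar Qb N ℓ))
    (hN : NormFormulaAlong Qb (heckeAlphaBar Qb N ℓ) hfin) (σ₀ : GQ) {x : JZero N}
    (hx : x ∈ @relAddSub ℚ Qb _ _ _ (JZero N) _ (heckeModuleBar N) _ A ℓ hℓ σ₀) :
    ∃ (D : Divisor Qb (FBar N)) (hD : Divisor.degree D = 0),
      D ∈ AddSubgroup.closure (genDiv (mapSet ℓ hα hβ A σ₀)) ∧ cls D hD = x := by
  letI := heckeModuleBar N
  unfold relAddSub at hx
  induction hx using AddSubgroup.closure_induction with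
  | mem y hy =>
    rcases hy with ⟨τ, hτ, x, rfl⟩ | ⟨x, rfl⟩
    · obtain ⟨⟨Y, hY⟩, rfl⟩ := Pic0.mk_surjective x
      have hY0 : Divisor.degree Y = 0 := hY
      refine ⟨inertiaMap N τ Y, degree_inertiaMap τ Y hY0,
        AddSubgroup.subset_closure ⟨_, Or.inl ⟨τ, hτ, rfl⟩, Y, hY0, rfl⟩, ?_⟩
      rfl
    · obtain ⟨⟨Y, hY⟩, rfl⟩ := Pic0.mk_surjective x
      have hY0 : Divisor.degree Y = 0 := hY
      refine ⟨frobMap ℓ hα hβ σ₀ Y, degree_frobMap ℓ hα hβ hFI σ₀ Y hY0,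
        AddSubgroup.subset_closure ⟨_, Or.inr rfl, Y, hY0, rfl⟩, ?_⟩
      have hT : heckeGen ⟨ℓ, hℓ⟩ • (σ₀ • Pic0.mk (⟨Y, hY⟩ : Divisor.degZero)) =
          cls (Divisor.correspondence (heckeBetaBar Qb N ℓ) (heckeAlphaBar Qb N ℓ) hβ hα
            (gal N σ₀ • Y))
            (by rw [Divisor.degree_correspondence _ _ hβ hα hFI, SemilinearAut.degree_smul, hY0,
              mul_zero]) := by
        rw [heckeModuleBar_heckeGen_smul hcomm, heckeOperatorBar_apply,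
          heckeOperatorAlong_eq hα hβ hFI hfin hN]
        rfl
      rw [hT]
      have hdσ : Divisor.degree (gal N σ₀ • Y) = 0 := by rw [SemilinearAut.degree_smul, hY0]
      have hdσσ : Divisor.degree (gal N σ₀ • gal N σ₀ • Y) = 0 := by
        rw [SemilinearAut.degree_smul, hdσ]
      have hdℓ : Divisor.degree (ℓ • Y) = 0 := by rw [map_nsmul, hY0, smul_zero]
      have hdc : Divisor.degree (Divisor.correspondence (heckeBetaBar Qb N ℓ)
          (heckeAlphaBar Qb N ℓ) hβ hα (gal N σ₀ • Y)) = 0 := by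
        rw [Divisor.degree_correspondence _ _ hβ hα hFI, hdσ, mul_zero]
      have e1 : σ₀ • σ₀ • Pic0.mk (⟨Y, hY⟩ : Divisor.degZero) =
          cls (gal N σ₀ • gal N σ₀ • Y) hdσσ := rfl
      have e2 : ℓ • Pic0.mk (⟨Y, hY⟩ : Divisor.degZero) = cls (ℓ • Y) hdℓ :=
        (cls_nsmul ℓ Y hY0 hdℓ).symm
      rw [e1, e2]
      have e3 : cls (frobMap ℓ hα hβ σ₀ Y) (degree_frobMap ℓ hα hβ hFI σ₀ Y hY0) =
          cls (gal N σ₀ • gal N σ₀ • Y) hdσσ + cls (ℓ • Y) hdℓ -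
            cls (Divisor.correspondence (heckeBetaBar Qb N ℓ)
              (heckeAlphaBar Qb N ℓ) hβ hα (gal N σ₀ • Y)) hdc := rfl
      rw [e3]
      abel
  | zero => exact ⟨0, map_zero _, AddSubgroup.zero_mem _, rfl⟩
  | add y z _ _ hy hz =>
    obtain ⟨D, hD, hDc, rfl⟩ := hy
    obtain ⟨D', hD', hDc', rfl⟩ := hz
    exact ⟨D + D', by rw [map_add, hD, hD', add_zero], AddSubgroup.add_mem _ hDc hDc', rfl⟩
  | neg y _ hy =>
    obtain ⟨D, hD, hDc, rfl⟩ := hy
    exact ⟨-D, by rw [map_neg, hD, neg_zero], AddSubgroup.neg_mem _ hDc, rfl⟩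

end Main

/-- **S37 from the KEY LEMMA.**  For every level `N`, the function form of "prime-to-`ℓ` torsion
injects under reduction" (`KeyLemmaAt N`) implies the existence of specializations of `J₀(N)` with
the Eichler--Shimura relation (frozen statement S37). -/
theorem specializationExists_of_keyLemmaAt (N p : ℕ) [NeZero N]
    (hcomm : ModularCurve.HeckeOperatorsCommuteBar N) (hKL : KeyLemmaAt N) :
    letI := ModularCurve.heckeModuleBar N
    ∀ (_ : SMulCommClass (AlgebraicClosure ℚ ≃ₐ[ℚ] AlgebraicClosure ℚ) ModularCurve.HeckeAlg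
      (ModularCurve.JZero N)),
      ModularCurve.SpecializationExists (K := ℚ) (L := AlgebraicClosure ℚ) N p
        (ModularCurve.JZero N) := by
  letI := ModularCurve.heckeModuleBar N
  intro hsmul ℓ hℓ hndvd A hA
  haveI : NeZero ℓ := ⟨hℓ.ne_zero⟩
  haveI : IsAlgClosed (IsLocalRing.ResidueField A) :=
    Fermat.Agent.FrobTrace.isAlgClosed_residueField A
  have hℓN : ¬ ℓ ∣ N := fun h => hndvd (Dvd.dvd.mul_right h p)
  have hℓp : ¬ ℓ ∣ p := fun h => hndvd (Dvd.dvd.mul_left h N)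
  obtain ⟨σ₀, hσ₀, -, -⟩ := Fermat.Agent.FrobBridge.exists_isFrobeniusAt_of_liesOver A ℓ hℓ hA
  obtain ⟨hα, hβ, hP, hfin, hFI, hN⟩ := Fermat.Agent.HeckeInputs.hi_heckeInputsAlong_Qbar N ℓ
  haveI := hP
  refine exists_specialization_of_core p A ℓ hℓ σ₀ hσ₀ ?_
  rintro x ⟨n, hn⟩ hx
  obtain ⟨D, hD, hDc, rfl⟩ := exists_rep ℓ hα hβ A hcomm hℓ hFI hfin hN σ₀ hx
  set m : ℕ := p ^ n with hm
  have hm0 : m ≠ 0 := by
    rw [hm]
    apply pow_ne_zero
    rintro rfl
    exact hℓp (dvd_zero ℓ)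
  have hℓm : ¬ ℓ ∣ N * m := by
    intro h
    rcases (Nat.Prime.dvd_mul hℓ).mp h with h1 | h1
    · exact hℓN h1
    · exact hℓp (hℓ.dvd_of_dvd_pow h1)
  -- `m • D` is principal
  have hmdeg : Divisor.degree (m • D) = 0 := by rw [map_nsmul, hD, smul_zero]
  have hmcls : cls (m • D) hmdeg = 0 := by
    rw [cls_nsmul m D hD hmdeg]
    exact hn
  obtain ⟨f, hf, hmD⟩ := exists_divOf_of_cls_eq_zero (m • D) hmdeg hmcls
  -- the KEY LEMMA in the shape of `principal_of_mem_closure`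
  set S := modGData A ℓ N hℓ hA with hS
  have hKL' : ∀ w : FBar N, S.red w = 1 → (∀ P : Place Qb (FBar N), (m : ℤ) ∣ P.ord w) →
      ∃ h : FBar N, h ^ m = w := by
    intro w hw hdvd
    obtain ⟨hwmem, hwres⟩ := (modGData_red_eq_one_iff A ℓ N hℓ hA w).mp hw
    have hw0 : w ≠ 0 := S.ne_zero_of_red_ne_zero (by rw [hw]; exact one_ne_zero)
    exact hKL m ℓ hℓ hℓm A hA w hw0 hdvd hwmem hwres
  obtain ⟨h, hh0, hDh⟩ := principal_of_mem_closure S (mapSet ℓ hα hβ A σ₀)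
    (isGoodMap_of_mem_mapSet ℓ hα hβ A hℓ hA hℓN hFI hfin hN hσ₀) m hm0 hKL' hDc hf hmD
  exact cls_eq_zero_of_eq_divOf D hD hh0 hDh

end Fermat.Agent.S37
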